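import Mathlib

/-!
# Row LT, tower T7, leaf T7.L2.1.C2.5b `TorMeasC305` (owner helper787): algebra — OFF-MAIN

Mathlib only.

* `comm_of_comm787`: over a commutative ring, two `2 × 2` matrices which commute with a matrix
  `Γ` whose lower left entry is a unit commute (the centraliser of `Γ` is `A + A Γ`);
* `lower_left_ne_zero787`: a `2 × 2` matrix over a field without eigenvalue in the field has a
  non-zero lower left entry;
* `gl_map_injective787`, `gl_of_fixed787`: descent of invertible matrices along an injective ring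
  homomorphism.
-/

set_option autoImplicit false

namespace Fermat.Agent.LT.T7.H787

open Matrix

section Cent

variable {A : Type*} [CommRing A]

theorem mul_apply_two787 (x y : Matrix (Fin 2) (Fin 2) A) (i j : Fin 2) :
    (x * y) i j = x i 0 * y 0 j + x i 1 * y 1 j := by
  rw [Matrix.mul_apply, Fin.sum_univ_two]

/-- Two matrices commuting with `Γ` commute, if the lower left entry of `Γ` is a unit. -/
theorem comm_of_comm787 (Γ x y : Matrix (Fin 2) (Fin 2) A) (hu : IsUnit (Γ 1 0))
    (hx : x * Γ = Γ * x) (hy : y * Γ = Γ * y) : x * y = y * x := by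
  obtain ⟨u, hu⟩ := hu
  have hv : Γ 1 0 * (↑u⁻¹ : A) = 1 := by rw [← hu]; exact u.mul_inv
  have hx00 := congrFun (congrFun hx 0) 0
  have hx10 := congrFun (congrFun hx 1) 0
  have hy00 := congrFun (congrFun hy 0) 0
  have hy10 := congrFun (congrFun hy 1) 0
  rw [mul_apply_two787, mul_apply_two787] at hx00 hx10 hy00 hy10
  have ex01 : x 0 1 = (↑u⁻¹ : A) * Γ 0 1 * x 1 0 := by
    linear_combination (↑u⁻¹ : A) * hx00 - x 0 1 * hv
  have ex00 : x 0 0 = x 1 1 + (↑u⁻¹ : A) * (Γ 0 0 - Γ 1 1) * x 1 0 := by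
    linear_combination (-(↑u⁻¹ : A)) * hx10 - (x 0 0 - x 1 1) * hv
  have ey01 : y 0 1 = (↑u⁻¹ : A) * Γ 0 1 * y 1 0 := by
    linear_combination (↑u⁻¹ : A) * hy00 - y 0 1 * hv
  have ey00 : y 0 0 = y 1 1 + (↑u⁻¹ : A) * (Γ 0 0 - Γ 1 1) * y 1 0 := by
    linear_combination (-(↑u⁻¹ : A)) * hy10 - (y 0 0 - y 1 1) * hv
  ext i j
  rw [mul_apply_two787, mul_apply_two787]
  fin_cases i <;> fin_cases j
  · show x 0 0 * y 0 0 + x 0 1 * y 1 0 = y 0 0 * x 0 0 + y 0 1 * x 1 0
    rw [ex01, ey01]
    ring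
  · show x 0 0 * y 0 1 + x 0 1 * y 1 1 = y 0 0 * x 0 1 + y 0 1 * x 1 1
    rw [ex01, ey01, ex00, ey00]
    ring
  · show x 1 0 * y 0 0 + x 1 1 * y 1 0 = y 1 0 * x 0 0 + y 1 1 * x 1 0
    rw [ex00, ey00]
    ring
  · show x 1 0 * y 0 1 + x 1 1 * y 1 1 = y 1 0 * x 0 1 + y 1 1 * x 1 1
    rw [ex01, ey01]
    ring

/-- The same in `GL₂`. -/
theorem gl_comm_of_comm787 (Γ x y : GL (Fin 2) A)
    (hu : IsUnit ((Γ : Matrix (Fin 2) (Fin 2) A) 1 0))
    (hx : x * Γ = Γ * x) (hy : y * Γ = Γ * y) : x * y = y * x := by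
  apply Units.ext
  have hx' : (x : Matrix (Fin 2) (Fin 2) A) * (Γ : Matrix (Fin 2) (Fin 2) A)
      = (Γ : Matrix (Fin 2) (Fin 2) A) * (x : Matrix (Fin 2) (Fin 2) A) := by
    have := congrArg (fun g : GL (Fin 2) A => (g : Matrix (Fin 2) (Fin 2) A)) hx
    simpa using this
  have hy' : (y : Matrix (Fin 2) (Fin 2) A) * (Γ : Matrix (Fin 2) (Fin 2) A)
      = (Γ : Matrix (Fin 2) (Fin 2) A) * (y : Matrix (Fin 2) (Fin 2) A) := by
    have := congrArg (fun g : GL (Fin 2) A => (g : Matrix (Fin 2) (Fin 2) A)) hy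
    simpa using this
  have := comm_of_comm787 _ _ _ hu hx' hy'
  simpa using this

end Cent

section Field

variable {F : Type*} [Field F]

/-- A matrix without eigenvalue in the field has a non-zero lower left entry. -/
theorem lower_left_ne_zero787 (M : Matrix (Fin 2) (Fin 2) F)
    (h : ∀ x : F, x ^ 2 - M.trace * x + M.det ≠ 0) : M 1 0 ≠ 0 := by
  intro h0
  apply h (M 0 0)
  rw [Matrix.trace_fin_two, Matrix.det_fin_two, h0]
  ring

end Field

section Descent

variable {R S : Type*} [CommRing R] [CommRing S]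

theorem gl_map_apply787 (f : R →+* S) (g : GL (Fin 2) R) (i j : Fin 2) :
    ((Matrix.GeneralLinearGroup.map f g : GL (Fin 2) S) : Matrix (Fin 2) (Fin 2) S) i j
      = f ((g : Matrix (Fin 2) (Fin 2) R) i j) := rfl

theorem gl_map_injective787 (f : R →+* S) (hf : Function.Injective f) :
    Function.Injective (Matrix.GeneralLinearGroup.map (n := Fin 2) f) := by
  intro g g' h
  apply Units.ext
  ext i j
  apply hf
  exact congrArg (fun x : GL (Fin 2) S => (x : Matrix (Fin 2) (Fin 2) S) i j) h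

/-- An invertible matrix over `S` whose entries and whose inverse determinant come from `R` comes
from an invertible matrix over `R`, if `f` is injective and its image is the set of the fixed
points of an endomorphism `τ`. -/
theorem gl_of_fixed787 (f : R →+* S) (hf : Function.Injective f) (τ : S →+* S)
    (honto : ∀ y : S, τ y = y → ∃ x : R, f x = y)
    (x : GL (Fin 2) S) (hx : ∀ i j, τ ((x : Matrix (Fin 2) (Fin 2) S) i j)
      = (x : Matrix (Fin 2) (Fin 2) S) i j) :
    ∃ t : GL (Fin 2) R, Matrix.GeneralLinearGroup.map f t = x := by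
  choose! e he using honto
  -- the matrix
  let T : Matrix (Fin 2) (Fin 2) R := fun i j => e ((x : Matrix (Fin 2) (Fin 2) S) i j)
  have hT : T.map f = (x : Matrix (Fin 2) (Fin 2) S) := by
    ext i j
    exact he _ (hx i j)
  -- the inverse matrix has fixed entries as well
  have hxinv : ∀ i j, τ (((x⁻¹ : GL (Fin 2) S) : Matrix (Fin 2) (Fin 2) S) i j)
      = ((x⁻¹ : GL (Fin 2) S) : Matrix (Fin 2) (Fin 2) S) i j := by
    have h1 : Matrix.GeneralLinearGroup.map τ x = x := by
      apply Units.ext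
      ext i j
      exact hx i j
    have h2 : Matrix.GeneralLinearGroup.map τ x⁻¹ = x⁻¹ := by
      rw [map_inv, h1]
    intro i j
    exact congrArg (fun g : GL (Fin 2) S => (g : Matrix (Fin 2) (Fin 2) S) i j) h2
  let T' : Matrix (Fin 2) (Fin 2) R :=
    fun i j => e (((x⁻¹ : GL (Fin 2) S) : Matrix (Fin 2) (Fin 2) S) i j)
  have hT' : T'.map f = ((x⁻¹ : GL (Fin 2) S) : Matrix (Fin 2) (Fin 2) S) := by
    ext i j
    exact he _ (hxinv i j)
  have hinj : Function.Injective (fun M : Matrix (Fin 2) (Fin 2) R => M.map f) := by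
    intro M N h
    ext i j
    apply hf
    exact congrFun (congrFun h i) j
  have h1 : T * T' = 1 := by
    apply hinj
    show (T * T').map f = (1 : Matrix (Fin 2) (Fin 2) R).map f
    rw [Matrix.map_mul, hT, hT', Matrix.map_one f (map_zero f) (map_one f), ← Units.val_mul,
      mul_inv_cancel, Units.val_one]
  have h2 : T' * T = 1 := by
    apply hinj
    show (T' * T).map f = (1 : Matrix (Fin 2) (Fin 2) R).map f
    rw [Matrix.map_mul, hT, hT', Matrix.map_one f (map_zero f) (map_one f), ← Units.val_mul,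
      inv_mul_cancel, Units.val_one]
  refine ⟨⟨T, T', h1, h2⟩, ?_⟩
  apply Units.ext
  ext i j
  exact he _ (hx i j)

end Descent

end Fermat.Agent.LT.T7.H787
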