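import Fermat.Agent.LT.T7.H305.MatchSpec
import Fermat.Agent.LT.T5.H415.AutT5
import Fermat.Agent.LT.H11.LC
import Fermat.Agent.LT.T7.H787.TorAlg

/-!
# Row LT, tower T7, leaf T7.L2.1.C2.5b `TorMeasC305` (owner helper787) — OFF-MAIN

`torMeasC787 (K K') : H305.TorMeasC305 K K'`, VERBATIM, unconditional.

For `N δ = γ` elliptic the base change `ι` of adeles maps the centraliser `T_𝔸(γ)` of `γ` in
`GL₂(𝔸_K)` ISOMORPHICALLY (as topological groups) onto the twisted centraliser `T_𝔸(δ)` of `δ` in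
`GL₂(𝔸_{K'})`:

* `x⁻¹ δ σ(x) = δ` gives `σ^j(x) = N_j(δ)⁻¹ x N_j(δ)`; `σ_𝔸^l = 1` (asset of helper415), so `x`
  commutes with `γ`; the centraliser of `γ` is commutative (`TorAlg`) and contains `δ`; hence
  `σ(x) = x` and `x = ι(t)`;
* `ι` is a closed embedding, so `GL₂(ι)` is one (Mathlib), and the restriction to the tori is a
  closed embedding onto `T_𝔸(δ)`: the image of a Haar measure is a Haar measure.
-/

set_option autoImplicit false
set_option linter.unusedSectionVars false
set_option linter.unusedVariables false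
set_option linter.style.haveILetI false

open AutomorphicForm IsDedekindDomain NumberField MeasureTheory

noncomputable section

namespace Fermat.Agent.LT.T7.H787

open Fermat.Agent.LT.H556 Fermat.Agent.LT.H556.A0 Fermat.Agent.LT.T7 Fermat.Agent.LT.T7.H305
open Fermat.Agent.LT

attribute [local instance] Fermat.Agent.LT.T5.instMeasurableSpaceG

/-! ## 1. One field: the twisted centraliser -/

section OneField

variable {K : Type} [Field K] [NumberField K]

theorem mem_tA787 (s : T5.AdelicAut K) (δ : GL (Fin 2) K) (x : G K) :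
    x ∈ tA305 s δ ↔ x⁻¹ * T5.ratG δ * s.onG x = T5.ratG δ := Iff.rfl

theorem onG_of_mem787 (s : T5.AdelicAut K) (δ : GL (Fin 2) K) (x : G K) (hx : x ∈ tA305 s δ) :
    s.onG x = (T5.ratG δ)⁻¹ * x * T5.ratG δ := by
  have h := (mem_tA787 s δ x).1 hx
  calc s.onG x = (T5.ratG δ)⁻¹ * x * (x⁻¹ * T5.ratG δ * s.onG x) := by group
    _ = (T5.ratG δ)⁻¹ * x * T5.ratG δ := by rw [h]

theorem onG_ratG787 (s : T5.AdelicAut K) (g : GL (Fin 2) K) :
    s.onG (T5.ratG g) = T5.ratG (s.onRat g) := by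
  apply Units.ext
  ext i j
  exact s.compat _

/-- `σ^n(x) = N_n(δ)⁻¹ x N_n(δ)` on the twisted centraliser. -/
theorem onG_iterate_of_mem787 (s : T5.AdelicAut K) (δ : GL (Fin 2) K) (x : G K)
    (hx : x ∈ tA305 s δ) (n : ℕ) :
    (⇑s.onG)^[n] x = (T5.ratG (s.normUpTo n δ))⁻¹ * x * T5.ratG (s.normUpTo n δ) := by
  induction n with
  | zero =>
    show x = (T5.ratG 1)⁻¹ * x * T5.ratG 1
    rw [map_one]
    group
  | succ n ih =>
    rw [Function.iterate_succ_apply', ih, map_mul, map_mul, map_inv, onG_ratG787,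
      onG_of_mem787 s δ x hx]
    show _ = (T5.ratG (δ * s.onRat (s.normUpTo n δ)))⁻¹ * x
      * T5.ratG (δ * s.onRat (s.normUpTo n δ))
    rw [map_mul]
    group

/-- The twisted centraliser commutes with the norm. -/
theorem comm_norm_of_mem787 (s : T5.AdelicAut K) (l : ℕ) (k : Subfield K)
    (hc : T5.IsCyclicOfDegree s l k) (δ : GL (Fin 2) K) (x : G K) (hx : x ∈ tA305 s δ) :
    x * T5.ratG (s.normUpTo l δ) = T5.ratG (s.normUpTo l δ) * x := by
  have h := onG_iterate_of_mem787 s δ x hx l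
  rw [T5.H415.onG_iterate415 s l k hc] at h
  calc x * T5.ratG (s.normUpTo l δ)
      = T5.ratG (s.normUpTo l δ)
          * ((T5.ratG (s.normUpTo l δ))⁻¹ * x * T5.ratG (s.normUpTo l δ)) := by group
    _ = T5.ratG (s.normUpTo l δ) * x := by rw [← h]

theorem onRat_iterate_apply787 (s : T5.AdelicAut K) (n : ℕ) (g : GL (Fin 2) K) (i j : Fin 2) :
    ((⇑s.onRat)^[n] g : Matrix (Fin 2) (Fin 2) K) i j
      = (s.σ ^ n) ((g : Matrix (Fin 2) (Fin 2) K) i j) := by
  induction n with
  | zero => simp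
  | succ n ih =>
    rw [Function.iterate_succ_apply', pow_succ']
    show s.σ (((⇑s.onRat)^[n] g : Matrix (Fin 2) (Fin 2) K) i j) = _
    rw [ih]
    rfl

theorem onRat_iterate_eq787 (s : T5.AdelicAut K) (l : ℕ) (h : ∀ x : K, (s.σ ^ l) x = x)
    (g : GL (Fin 2) K) : (⇑s.onRat)^[l] g = g := by
  apply Units.ext
  ext i j
  rw [onRat_iterate_apply787, h]

/-- `N_{n+1}(δ) = N_n(δ) σ^n(δ)`. -/
theorem normUpTo_succ787 (s : T5.AdelicAut K) (δ : GL (Fin 2) K) (n : ℕ) :
    s.normUpTo (n + 1) δ = s.normUpTo n δ * (⇑s.onRat)^[n] δ := by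
  induction n with
  | zero =>
    show δ * s.onRat 1 = 1 * δ
    rw [map_one, mul_one, one_mul]
  | succ n ih =>
    show δ * s.onRat (s.normUpTo (n + 1) δ) = δ * s.onRat (s.normUpTo n δ) * (⇑s.onRat)^[n + 1] δ
    rw [ih, map_mul, Function.iterate_succ_apply', mul_assoc]

/-- `δ` commutes with its norm, if the norm is fixed by `σ`. -/
theorem comm_norm_self787 (s : T5.AdelicAut K) (l : ℕ) (h : ∀ x : K, (s.σ ^ l) x = x)
    (δ : GL (Fin 2) K) (hfix : s.onRat (s.normUpTo l δ) = s.normUpTo l δ) :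
    δ * s.normUpTo l δ = s.normUpTo l δ * δ := by
  have h1 : s.normUpTo (l + 1) δ = δ * s.onRat (s.normUpTo l δ) := rfl
  have h2 := normUpTo_succ787 s δ l
  rw [onRat_iterate_eq787 s l h, h1, hfix] at h2
  exact h2

/-- The centraliser of `γ` (the twisted centraliser for the trivial automorphism). -/
theorem mem_tA_id787 (γ : GL (Fin 2) K) (t : G K) :
    t ∈ tA305 (T5.AdelicAut.id K) γ ↔ T5.ratG γ * t = t * T5.ratG γ := by
  rw [mem_tA787, T5.onG_id]
  constructor
  · intro h
    calc T5.ratG γ * t = t * (t⁻¹ * T5.ratG γ * t) := by group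
      _ = t * T5.ratG γ := by rw [h]
  · intro h
    calc t⁻¹ * T5.ratG γ * t = t⁻¹ * (T5.ratG γ * t) := by group
      _ = T5.ratG γ := by rw [h]; group

theorem isClosed_tA_id787 [T2Space (G K)] (γ : GL (Fin 2) K) :
    IsClosed ((tA305 (T5.AdelicAut.id K) γ : Subgroup (G K)) : Set (G K)) := by
  have h : ((tA305 (T5.AdelicAut.id K) γ : Subgroup (G K)) : Set (G K))
      = {t : G K | T5.ratG γ * t = t * T5.ratG γ} := by
    ext t
    exact mem_tA_id787 γ t
  rw [h]
  exact isClosed_eq (continuous_const.mul continuous_id) (continuous_id.mul continuous_const)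

end OneField

/-! ## 2. Two fields: the isomorphism of the tori -/

section TwoFields

variable {K K' : Type} [Field K] [NumberField K] [Field K'] [NumberField K'] [Algebra K K']

/-- `GL₂(ι)`. -/
abbrev glι787 (ι : Adl K →+* Adl K') : G K →* G K' := Matrix.GeneralLinearGroup.map ι

theorem glι_ratG787 {s : T5.AdelicAut K'} {l : ℕ} {ι : Adl K →+* Adl K'}
    (hι : IsAdeleBase305 s l ι) (γ : GL (Fin 2) K) :
    glι787 ι (T5.ratG γ) = T5.ratG (Matrix.GeneralLinearGroup.map (algebraMap K K') γ) := by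
  apply Units.ext
  ext i j
  exact hι.rat _

theorem onG_glι787 {s : T5.AdelicAut K'} {l : ℕ} {ι : Adl K →+* Adl K'}
    (hι : IsAdeleBase305 s l ι) (t : G K) : s.onG (glι787 ι t) = glι787 ι t := by
  apply Units.ext
  ext i j
  exact hι.fixed _

theorem injective_ι787 {s : T5.AdelicAut K'} {l : ℕ} {ι : Adl K →+* Adl K'}
    (hι : IsAdeleBase305 s l ι) : Function.Injective ι := hι.closed.injective

/-- The data of the leaf. -/
structure TorSetup787 (D : CompData K K') (ι : Adl K →+* Adl K') (δ : GL (Fin 2) K')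
    (γ : GL (Fin 2) K) : Prop where
  comp : IsCompData D
  base : IsAdeleBase305 D.s D.l ι
  ell : T6.IsEll γ
  norm : D.s.normUpTo D.l δ = Matrix.GeneralLinearGroup.map (algebraMap K K') γ

namespace TorSetup787

variable {D : CompData K K'} {ι : Adl K →+* Adl K'} {δ : GL (Fin 2) K'} {γ : GL (Fin 2) K}
variable (H : TorSetup787 D ι δ γ)

include H

theorem sigma_fix : ∀ y : K, D.s.σ (algebraMap K K' y) = algebraMap K K' y := fun y =>
  (H.comp.cyc.fixed _).1 ((H.comp.base _).2 ⟨y, rfl⟩)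

theorem onRat_norm : D.s.onRat (D.s.normUpTo D.l δ) = D.s.normUpTo D.l δ := by
  rw [H.norm]
  apply Units.ext
  ext i j
  exact H.sigma_fix _

/-- `δ` commutes with `γ`. -/
theorem delta_comm : T5.ratG δ * T5.ratG (D.s.normUpTo D.l δ)
    = T5.ratG (D.s.normUpTo D.l δ) * T5.ratG δ := by
  rw [← map_mul, ← map_mul, comm_norm_self787 D.s D.l H.comp.cyc.pow_eq δ H.onRat_norm]

/-- The lower left entry of `γ` is a unit of the adeles. -/
theorem unit_entry :
    IsUnit ((T5.ratG (D.s.normUpTo D.l δ) : Matrix (Fin 2) (Fin 2) (Adl K')) 1 0) := by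
  rw [H.norm]
  have h0 : (γ : Matrix (Fin 2) (Fin 2) K) 1 0 ≠ 0 := lower_left_ne_zero787 _ H.ell.2
  have h1 : IsUnit ((γ : Matrix (Fin 2) (Fin 2) K) 1 0) := isUnit_iff_ne_zero.2 h0
  exact (h1.map (algebraMap K K')).map (algebraMap K' (Adl K'))

/-- The twisted centraliser is fixed by `σ`. -/
theorem onG_eq_of_mem (x : G K') (hx : x ∈ tA305 D.s δ) : D.s.onG x = x := by
  have h1 := comm_norm_of_mem787 D.s D.l D.k H.comp.cyc δ x hx
  have h2 : x * T5.ratG δ = T5.ratG δ * x :=
    gl_comm_of_comm787 _ _ _ H.unit_entry h1 H.delta_comm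
  rw [onG_of_mem787 D.s δ x hx, mul_assoc, h2]
  group

/-- `ι` maps the centraliser of `γ` into the twisted centraliser of `δ`. -/
theorem map_mem (t : G K) (ht : t ∈ tA305 (T5.AdelicAut.id K) γ) :
    glι787 ι t ∈ tA305 D.s δ := by
  rw [mem_tA787, onG_glι787 H.base]
  have h1 : T5.ratG γ * t = t * T5.ratG γ := (mem_tA_id787 γ t).1 ht
  have h2 : glι787 ι t * T5.ratG (D.s.normUpTo D.l δ)
      = T5.ratG (D.s.normUpTo D.l δ) * glι787 ι t := by
    rw [H.norm, ← glι_ratG787 H.base, ← map_mul, ← map_mul, h1]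
  have h3 : glι787 ι t * T5.ratG δ = T5.ratG δ * glι787 ι t :=
    gl_comm_of_comm787 _ _ _ H.unit_entry h2 H.delta_comm
  calc (glι787 ι t)⁻¹ * T5.ratG δ * glι787 ι t
      = (glι787 ι t)⁻¹ * (T5.ratG δ * glι787 ι t) := by group
    _ = T5.ratG δ := by rw [← h3]; group

/-- Every element of the twisted centraliser of `δ` comes from the centraliser of `γ`. -/
theorem exists_of_mem (x : G K') (hx : x ∈ tA305 D.s δ) :
    ∃ t : G K, t ∈ tA305 (T5.AdelicAut.id K) γ ∧ glι787 ι t = x := by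
  have hfix := H.onG_eq_of_mem x hx
  have hent : ∀ i j, (D.s.σA : Adl K' →+* Adl K') ((x : Matrix (Fin 2) (Fin 2) (Adl K')) i j)
      = (x : Matrix (Fin 2) (Fin 2) (Adl K')) i j := by
    intro i j
    exact congrArg (fun g : G K' => (g : Matrix (Fin 2) (Fin 2) (Adl K')) i j) hfix
  obtain ⟨t, ht⟩ := gl_of_fixed787 ι (injective_ι787 H.base) (D.s.σA : Adl K' →+* Adl K')
    H.base.onto x hent
  refine ⟨t, ?_, ht⟩
  rw [mem_tA_id787]
  apply gl_map_injective787 ι (injective_ι787 H.base)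
  have h1 := comm_norm_of_mem787 D.s D.l D.k H.comp.cyc δ x hx
  rw [H.norm, ← glι_ratG787 H.base] at h1
  show glι787 ι (T5.ratG γ * t) = glι787 ι (t * T5.ratG γ)
  rw [map_mul, map_mul, ht, h1]

/-- The isomorphism of the tori, as a homomorphism. -/
def torHom : tA305 (T5.AdelicAut.id K) γ →* tA305 D.s δ :=
  ((glι787 ι).comp (tA305 (T5.AdelicAut.id K) γ).subtype).codRestrict (tA305 D.s δ)
    (fun t => H.map_mem t.1 t.2)

theorem torHom_coe (t : tA305 (T5.AdelicAut.id K) γ) :
    ((H.torHom t : tA305 D.s δ) : G K') = glι787 ι (t : G K) := rfl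

theorem torHom_surjective : Function.Surjective H.torHom := by
  intro x
  obtain ⟨t, ht, hx⟩ := H.exists_of_mem x.1 x.2
  exact ⟨⟨t, ht⟩, Subtype.ext hx⟩

theorem isClosedEmbedding_glι : Topology.IsClosedEmbedding (glι787 ι) := by
  haveI : T2Space (Adl K) := Fermat.Agent.LT.H11.LC.t2Space_adeleRing_h11 K
  exact H.base.closed.generalLinearGroup_map

theorem continuous_torHom : Continuous H.torHom :=
  Continuous.subtype_mk (H.isClosedEmbedding_glι.continuous.comp continuous_subtype_val) _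

theorem isClosedEmbedding_torHom : Topology.IsClosedEmbedding H.torHom := by
  refine ⟨?_, ?_⟩
  · refine Topology.IsEmbedding.of_comp H.continuous_torHom continuous_subtype_val ?_
    exact H.isClosedEmbedding_glι.isEmbedding.comp Topology.IsEmbedding.subtypeVal
  · rw [H.torHom_surjective.range_eq]
    exact isClosed_univ

end TorSetup787

/-! ## 3. The leaf -/

variable (K K')

/-- **Leaf C2.5b = TOR-MEAS** (`H305.TorMeasC305`). -/
theorem torMeasC787 : TorMeasC305 K K' := by
  intro D hD _hcyc _htc ι hι δ γ hγ hN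
  have H : TorSetup787 D ι δ γ := ⟨hD, hι, hγ, hN⟩
  haveI : LocallyCompactSpace (G K) :=
    Fermat.Agent.LT.H11.LC.locallyCompactSpace_GL2_adeleRing_h11 K
  haveI : T2Space (G K) := Fermat.Agent.LT.H11.LC.t2Space_GL2_adeleRing_h11 K
  haveI : T2Space (G K') := Fermat.Agent.LT.H11.LC.t2Space_GL2_adeleRing_h11 K'
  have hclosed := isClosed_tA_id787 γ
  haveI : LocallyCompactSpace (tA305 (T5.AdelicAut.id K) γ) :=
    (Topology.IsClosedEmbedding.mk Topology.IsEmbedding.subtypeVal
      (by rw [Subtype.range_coe]; exact hclosed)).locallyCompactSpace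
  letI mH : MeasurableSpace (tA305 (T5.AdelicAut.id K) γ) := borel _
  haveI : BorelSpace (tA305 (T5.AdelicAut.id K) γ) := ⟨rfl⟩
  letI mH' : MeasurableSpace (tA305 D.s δ) := borel _
  haveI : BorelSpace (tA305 D.s δ) := ⟨rfl⟩
  haveI : BorelSpace (G K') := ⟨rfl⟩
  let μT : Measure (tA305 (T5.AdelicAut.id K) γ) := Measure.haar
  have hmeas : Measurable H.torHom := H.continuous_torHom.measurable
  refine ⟨μT, Measure.map H.torHom μT, inferInstance, ?_, ?_⟩
  · exact Measure.isHaarMeasure_map μT H.torHom H.continuous_torHom H.torHom_surjective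
      H.isClosedEmbedding_torHom.tendsto_cocompact
  · intro A hA
    have hval : Measurable (Subtype.val : tA305 D.s δ → G K') :=
      continuous_subtype_val.measurable
    have hS : MeasurableSet {t : tA305 D.s δ | (t : G K') ∈ A} := hval hA
    rw [Measure.map_apply hmeas hS]
    rfl

end TwoFields

end Fermat.Agent.LT.T7.H787

end
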